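/-
S56 (Taylor-Wiles primes), architect file 1: the interface between the commutative algebra
(`Dictionary.lean`, `Assembly.lean`) and the arithmetic walls.  Definitions only.  Owner: helper82.

`TangentCardLe 𝒪 ρbar 𝒟 N` : the deformations of `ρbar` to the dual numbers `k[ε]` of type `𝒟` fall
into at most `N` equivalence classes (stated with a map to `Fin N`, no quotient type).
`TWBound 𝒪 p ρbar S cond` : the arithmetic wall.  It is the conclusion of one half of S56 with
"every deformation ring for `cond Q` is a quotient of `𝒪⟦X₁..X_r⟧`" replaced by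
"at most `|k|^r` deformations of type `cond Q` to `k[ε]`".
-/
import Fermat.Prelude.Def_GaloisRep_DeformationCondition
import Fermat.Prelude.Def_GaloisRep_DeformationRingData
import Fermat.Agent.S53.Defs
import Fermat.Agent.S59.Conditions

set_option autoImplicit false

namespace Fermat.Agent.S56

open IsLocalRing Polynomial

/-- The `k`-algebra structure on the residue field of `k[ε]` that is used in
`GaloisRep.TangentFinite`. -/
@[reducible] noncomputable def dualNumberResidueAlgebra (𝒪 : Type) [CommRing 𝒪] [IsLocalRing 𝒪] :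
    Algebra (ResidueField 𝒪) (ResidueField (DualNumber (ResidueField 𝒪))) :=
  ((IsLocalRing.residue (DualNumber (ResidueField 𝒪))).comp
    (algebraMap (ResidueField 𝒪) (DualNumber (ResidueField 𝒪)))).toAlgebra

/-- `ρ` is a deformation of `ρbar` to the dual numbers of type `𝒟` (the elements of the set
whose quotient is required to be finite in `GaloisRep.TangentFinite`). -/
def IsTangentPoint (𝒪 : Type) [CommRing 𝒪] [IsLocalRing 𝒪]
    (ρbar : ResidualGaloisRep (ResidueField 𝒪))
    (𝒟 : ∀ ⦃A : Type⦄ [CommRing A] [IsLocalRing A] [Algebra 𝒪 A], GaloisRepAdic A → Prop)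
    (ρ : GaloisRepAdic (DualNumber (ResidueField 𝒪))) : Prop :=
  letI := Fermat.Agent.S53.dualNumberAlgebra 𝒪
  letI := dualNumberResidueAlgebra 𝒪
  𝒟 ρ ∧ ρ.residual.IsEquiv (ρbar.baseChange (ResidueField (DualNumber (ResidueField 𝒪))))

/-- At most `N` equivalence classes of deformations of `ρbar` to `k[ε]` of type `𝒟`. -/
def TangentCardLe (𝒪 : Type) [CommRing 𝒪] [IsLocalRing 𝒪]
    (ρbar : ResidualGaloisRep (ResidueField 𝒪))
    (𝒟 : ∀ ⦃A : Type⦄ [CommRing A] [IsLocalRing A] [Algebra 𝒪 A], GaloisRepAdic A → Prop)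
    (N : ℕ) : Prop :=
  ∃ f : GaloisRepAdic (DualNumber (ResidueField 𝒪)) → Fin N,
    ∀ ρ ρ', IsTangentPoint 𝒪 ρbar 𝒟 ρ → IsTangentPoint 𝒪 ρbar 𝒟 ρ' → f ρ = f ρ' → ρ.IsEquiv ρ'

/-- The arithmetic wall of S56 for a family of conditions `cond Q` (`Q` the set of auxiliary
primes): there is `r` such that for every `n` there are `r` Taylor-Wiles primes of level `n` for
which the deformations of type `cond Q` to `k[ε]` fall into at most `|k|^r` classes. -/
def TWBound (𝒪 : Type) [CommRing 𝒪] [IsLocalRing 𝒪] (p : ℕ)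
    (ρbar : ResidualGaloisRep (ResidueField 𝒪)) (S : Finset ℕ)
    (cond : Finset ℕ → ∀ ⦃A : Type⦄ [CommRing A] [IsLocalRing A] [Algebra 𝒪 A],
      GaloisRepAdic A → Prop) : Prop :=
  ∃ r : ℕ, ∀ n : ℕ, ∃ qv : Fin r → ℕ, Function.Injective qv ∧
    (∀ i, (qv i).Prime ∧ qv i ∉ S ∧ p ^ (n + 1) ∣ qv i - 1) ∧
    (∀ i, ∀ P : ValuationSubring (AlgebraicClosure ℚ), P.LiesOverPrime (qv i) →
      ∀ φ : AlgebraicClosure ℚ ≃ₐ[ℚ] AlgebraicClosure ℚ, P.IsFrobeniusAt φ (qv i) →
        ∃ α β : ResidueField 𝒪, α ≠ β ∧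
          LinearMap.charpoly (ρbar.ρ φ) = (X - C α) * (X - C β)) ∧
    TangentCardLe 𝒪 ρbar (cond (Finset.univ.image qv)) (Nat.card (ResidueField 𝒪) ^ r)

end Fermat.Agent.S56
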