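/-
S56, leaf D1 (pure commutative algebra + the universal property; no arithmetic).  Owner: helper88.
If the deformations of `ρbar` to `k[ε]` of type `𝒟` fall into at most `|k|^r` classes, then every
universal deformation ring for `𝒟` is a quotient of `𝒪⟦X₁,…,X_r⟧`.

Proof.  `R = D.R`, `k = ResidueField 𝒪`, `A = k[ε]` (an Artinian test algebra:
`Fermat.Agent.S53.isArtinianTestAlgebra_dualNumber`).
(1) Every local `𝒪`-algebra map `φ : R → A` gives the tangent point `D.ρ.baseChangeAlong φ`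
    (`dict_isTangentPoint`).  By the uniqueness part of `D.universal`,
    `φ ↦ f (D.ρ.baseChangeAlong φ)` is injective (`dict_algHom_eq_of_isEquiv`).
(2) `W = R ⧸ (𝒪·1 + 𝔪_R²)` is a finite `k`-vector space; every `k`-linear form on `W`
    gives a local `𝒪`-algebra map `R → A` (`dictHom`), injectively: `|k|^(dim W) ≤ |k|^r`, so
    `dim_k W ≤ r` (`dict_finrank_le`).
(3) Lift a spanning family of `W` to `x₁..x_r ∈ 𝔪_R`, `γ : X_i ↦ x_i`
    (`dict_exists_algHom`); `γ` is onto modulo `𝔪_R²`, hence onto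
    (`Fermat.Agent.S59.redAux_surjective_of_sq`).
-/
import Fermat.Agent.S56.Interfaces
import Fermat.Agent.S53.Tangent
import Fermat.Agent.S53.TestAlgebra
import Fermat.Agent.S59.RedMapAux
import Fermat.Agent.S59.TWSubst

set_option autoImplicit false
set_option linter.style.haveILetI false
set_option linter.unusedSectionVars false

namespace Fermat.Agent.S56

open IsLocalRing GaloisRep

section Universal

variable {𝒪 : Type} [CommRing 𝒪] [IsDomain 𝒪] [IsDiscreteValuationRing 𝒪]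
  [IsAdicComplete (maximalIdeal 𝒪) 𝒪] [Finite (ResidueField 𝒪)]
  {ρbar : ResidualGaloisRep (ResidueField 𝒪)}
  {𝒟 : ∀ ⦃A : Type⦄ [CommRing A] [IsLocalRing A] [Algebra 𝒪 A], GaloisRepAdic A → Prop}

/-- The push-forward of the universal deformation along any local `𝒪`-algebra map to an Artinian
test algebra is of type `𝒟`. -/
theorem dict_isOfType_baseChangeAlong (h𝒟 : IsDeformationCondition 𝒪 𝒟)
    (D : DeformationRingData 𝒪 ρbar 𝒟)
    {A : Type} [CommRing A] [IsLocalRing A] [Algebra 𝒪 A] (hA : IsArtinianTestAlgebra 𝒪 A)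
    (φ : D.R →ₐ[𝒪] A) (hφ : IsLocalHom (φ : D.R →+* A)) :
    𝒟 (D.ρ.baseChangeAlong (φ : D.R →+* A) hφ) := by
  haveI : IsLocalRing φ.range :=
    Fermat.Agent.S53.IsArtinianTestAlgebra.isLocalRing_subalgebra hA φ.range
  have hB : IsArtinianTestAlgebra 𝒪 φ.range :=
    Fermat.Agent.S53.IsArtinianTestAlgebra.subalgebra hA φ.range
  have hq : Function.Surjective φ.rangeRestrict := φ.rangeRestrict_surjective
  have hqloc : IsLocalHom (φ.rangeRestrict : D.R →+* φ.range) :=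
    Fermat.Agent.S53.isLocalHom_of_surjective_algHom φ.rangeRestrict hq
  have hιloc : IsLocalHom (φ.range.val : φ.range →+* A) :=
    Fermat.Agent.S53.IsArtinianTestAlgebra.isLocalHom_of_injective hA φ.range.val
      Subtype.val_injective
  have h1 : 𝒟 (D.ρ.baseChangeAlong (φ.rangeRestrict : D.R →+* φ.range) hqloc) :=
    (h𝒟.iff_forall_surjective (inferInstance : IsLocalHom (algebraMap 𝒪 D.R))
      D.residue_surjective D.ρ).1 D.isOfType hB φ.rangeRestrict hqloc hq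
  have h2 := h𝒟.baseChangeAlong hB hA φ.range.val hιloc h1
  have hcomp : IsLocalHom ((φ.range.val : φ.range →+* A).comp
      (φ.rangeRestrict : D.R →+* φ.range)) :=
    @RingHom.isLocalHom_comp _ _ _ _ _ _ (φ.range.val : φ.range →+* A)
      (φ.rangeRestrict : D.R →+* φ.range) hιloc hqloc
  have h3 := Fermat.Agent.S59.redAux_baseChangeAlong_comp (φ.rangeRestrict : D.R →+* φ.range)
    hqloc (φ.range.val : φ.range →+* A) hιloc hcomp D.ρ
  have h4 := h𝒟.of_isEquiv hA h3 h2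
  exact h𝒟.of_isEquiv hA
    (Fermat.Agent.S59.redAux_baseChangeAlong_congr (RingHom.ext fun _ => rfl) hcomp hφ D.ρ) h4

/-- Uniqueness in the universal property, for Artinian test algebras: two local `𝒪`-algebra maps
out of the universal ring with equivalent push-forwards are equal. -/
theorem dict_algHom_eq_of_isEquiv (h𝒟 : IsDeformationCondition 𝒪 𝒟)
    (D : DeformationRingData 𝒪 ρbar 𝒟)
    {A : Type} [CommRing A] [IsLocalRing A] [Algebra 𝒪 A] (hA : IsArtinianTestAlgebra 𝒪 A)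
    (φ φ' : D.R →ₐ[𝒪] A) (hφ : IsLocalHom (φ : D.R →+* A))
    (hφ' : IsLocalHom (φ' : D.R →+* A))
    (h : (D.ρ.baseChangeAlong (φ : D.R →+* A) hφ).IsEquiv
      (D.ρ.baseChangeAlong (φ' : D.R →+* A) hφ')) : φ = φ' := by
  haveI := hA.isLocalHom
  haveI := hA.isArtinian
  have h1 := dict_isOfType_baseChangeAlong h𝒟 D hA φ' hφ'
  have hres := Fermat.Agent.S59.redAux_residual_baseChange ρbar φ' hφ' D.ρ D.residual_isEquiv
  obtain ⟨φ₀, -, huniq⟩ := D.universal A hA.residue_surjective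
    (D.ρ.baseChangeAlong (φ' : D.R →+* A) hφ') h1 hres
  have e1 : φ = φ₀ := huniq φ ⟨hφ, h⟩
  have e2 : φ' = φ₀ := huniq φ' ⟨hφ', ⟨GaloisRepAdic.Equiv.refl _⟩⟩
  rw [e1, e2]

/-- `ResidueField.map` of the structure map of the dual numbers. -/
theorem dict_residueFieldMap_dualNumber :
    letI := Fermat.Agent.S53.dualNumberAlgebra 𝒪
    ∀ [IsLocalHom (algebraMap 𝒪 (DualNumber (ResidueField 𝒪)))],
    IsLocalRing.ResidueField.map (algebraMap 𝒪 (DualNumber (ResidueField 𝒪))) =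
      (residue (DualNumber (ResidueField 𝒪))).comp
        (algebraMap (ResidueField 𝒪) (DualNumber (ResidueField 𝒪))) := by
  letI := Fermat.Agent.S53.dualNumberAlgebra 𝒪
  intro _
  ext x
  obtain ⟨a, rfl⟩ := IsLocalRing.residue_surjective x
  rfl

/-- The push-forward of the universal deformation along a local `𝒪`-algebra map to the dual
numbers is a tangent point. -/
theorem dict_isTangentPoint (h𝒟 : IsDeformationCondition 𝒪 𝒟)
    (D : DeformationRingData 𝒪 ρbar 𝒟) :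
    letI := Fermat.Agent.S53.dualNumberAlgebra 𝒪
    ∀ (φ : D.R →ₐ[𝒪] DualNumber (ResidueField 𝒪))
      (hφ : IsLocalHom (φ : D.R →+* DualNumber (ResidueField 𝒪))),
      IsTangentPoint 𝒪 ρbar 𝒟 (D.ρ.baseChangeAlong (φ : D.R →+* DualNumber (ResidueField 𝒪)) hφ) := by
  letI := Fermat.Agent.S53.dualNumberAlgebra 𝒪
  intro φ hφ
  have hT := Fermat.Agent.S53.isArtinianTestAlgebra_dualNumber (𝒪 := 𝒪)
  haveI : IsLocalHom (algebraMap 𝒪 (DualNumber (ResidueField 𝒪))) := hT.isLocalHom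
  refine ⟨dict_isOfType_baseChangeAlong h𝒟 D hT φ hφ, ?_⟩
  have hres := Fermat.Agent.S59.redAux_residual_baseChange ρbar φ hφ D.ρ D.residual_isEquiv
  rw [dict_residueFieldMap_dualNumber] at hres
  exact hres

end Universal

section Cotangent

variable {𝒪 : Type} [CommRing 𝒪] [IsDomain 𝒪] [IsDiscreteValuationRing 𝒪]
  [Finite (ResidueField 𝒪)]
variable {R : Type} [CommRing R] [IsLocalRing R] [Algebra 𝒪 R]

/-- The `𝒪`-submodule `𝒪·1 + 𝔪_R²` of a local `𝒪`-algebra `R`. -/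
def dictU (𝒪 : Type) [CommRing 𝒪] (R : Type) [CommRing R] [IsLocalRing R] [Algebra 𝒪 R] :
    Submodule 𝒪 R :=
  LinearMap.range (Algebra.linearMap 𝒪 R) ⊔ (maximalIdeal R ^ 2).restrictScalars 𝒪

theorem dict_algebraMap_mem_dictU (α : 𝒪) : algebraMap 𝒪 R α ∈ dictU 𝒪 R :=
  Submodule.mem_sup_left ⟨α, rfl⟩

theorem dict_mem_dictU_of_mem_sq {a : R} (ha : a ∈ maximalIdeal R ^ 2) : a ∈ dictU 𝒪 R :=
  Submodule.mem_sup_right (show a ∈ (maximalIdeal R ^ 2).restrictScalars 𝒪 from ha)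

theorem dict_exists_of_mem_dictU {u : R} (hu : u ∈ dictU 𝒪 R) :
    ∃ α : 𝒪, u - algebraMap 𝒪 R α ∈ maximalIdeal R ^ 2 := by
  obtain ⟨a, ⟨α, rfl⟩, y, hy, hay⟩ := Submodule.mem_sup.mp hu
  refine ⟨α, ?_⟩
  have : u - algebraMap 𝒪 R α = y := by
    rw [← hay]
    simp
  rw [this]
  exact hy

theorem dict_algebraMap_mem_maximalIdeal [IsLocalHom (algebraMap 𝒪 R)] {α : 𝒪}
    (hα : α ∈ maximalIdeal 𝒪) : algebraMap 𝒪 R α ∈ maximalIdeal R := by
  rw [mem_maximalIdeal, mem_nonunits_iff] at hα ⊢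
  exact fun hu => hα (isUnit_of_map_unit (algebraMap 𝒪 R) α hu)

/-- `R ⧸ (𝒪·1 + 𝔪_R²)` is killed by the maximal ideal of `𝒪`. -/
theorem dict_isTorsionBySet [IsLocalHom (algebraMap 𝒪 R)]
    (hs : Function.Surjective (residue R ∘ algebraMap 𝒪 R)) :
    Module.IsTorsionBySet 𝒪 (R ⧸ dictU 𝒪 R) (maximalIdeal 𝒪 : Set 𝒪) := by
  rintro v ⟨α, hα⟩
  obtain ⟨a, rfl⟩ := (dictU 𝒪 R).mkQ_surjective v
  show α • (dictU 𝒪 R).mkQ a = 0
  rw [← map_smul, Submodule.mkQ_apply, Submodule.Quotient.mk_eq_zero]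
  obtain ⟨β, hβ⟩ := Fermat.Agent.S53.exists_algebraMap_sub_mem_of_surjective hs a
  have e1 : α • a = algebraMap 𝒪 R (α * β) + algebraMap 𝒪 R α * (a - algebraMap 𝒪 R β) := by
    rw [Algebra.smul_def, map_mul]; ring
  rw [e1]
  refine (dictU 𝒪 R).add_mem (dict_algebraMap_mem_dictU _) (dict_mem_dictU_of_mem_sq ?_)
  rw [pow_two]
  exact Ideal.mul_mem_mul (dict_algebraMap_mem_maximalIdeal hα) hβ

/-- Every `𝒪`-linear map `R → k` that vanishes on `𝒪·1 + 𝔪_R²` is the `ε`-component of a local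
`𝒪`-algebra map `R → k[ε]`. -/
theorem dict_exists_algHom_of_derivation [IsLocalHom (algebraMap 𝒪 R)]
    (hs : Function.Surjective (residue R ∘ algebraMap 𝒪 R))
    (d : R →ₗ[𝒪] ResidueField 𝒪) (hdU : ∀ u ∈ dictU 𝒪 R, d u = 0) :
    letI := Fermat.Agent.S53.dualNumberAlgebra 𝒪
    ∃ Ψ : R →ₐ[𝒪] DualNumber (ResidueField 𝒪),
      IsLocalHom (Ψ : R →+* DualNumber (ResidueField 𝒪)) ∧ ∀ a : R, (Ψ a).snd = d a := by
  letI := Fermat.Agent.S53.dualNumberAlgebra 𝒪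
  -- the residue field of `R` is `k`
  have he0 : Function.Bijective (ResidueField.map (algebraMap 𝒪 R)) := by
    refine ⟨(ResidueField.map (algebraMap 𝒪 R)).injective, fun y => ?_⟩
    obtain ⟨α, hα⟩ := hs y
    exact ⟨residue 𝒪 α, by rw [ResidueField.map_residue]; exact hα⟩
  let e : ResidueField 𝒪 ≃+* ResidueField R := RingEquiv.ofBijective _ he0
  let π : R →+* ResidueField 𝒪 := (e.symm : ResidueField R →+* ResidueField 𝒪).comp (residue R)
  have hπ : ∀ α : 𝒪, π (algebraMap 𝒪 R α) = residue 𝒪 α := by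
    intro α
    show e.symm (residue R (algebraMap 𝒪 R α)) = residue 𝒪 α
    rw [RingEquiv.symm_apply_eq]
    show _ = ResidueField.map (algebraMap 𝒪 R) (residue 𝒪 α)
    rw [ResidueField.map_residue]
  have hπ0 : ∀ a : R, π a = 0 ↔ a ∈ maximalIdeal R := by
    intro a
    show e.symm (residue R a) = 0 ↔ _
    rw [map_eq_zero_iff _ e.symm.injective, residue_eq_zero_iff]
  have key : ∀ a : R, ∃ α : 𝒪, residue 𝒪 α = π a ∧ a - algebraMap 𝒪 R α ∈ maximalIdeal R := by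
    intro a
    obtain ⟨α, hα⟩ := residue_surjective (π a)
    refine ⟨α, hα, ?_⟩
    rw [← hπ0, map_sub, hπ, hα, sub_self]
  have hdalg : ∀ α : 𝒪, d (algebraMap 𝒪 R α) = 0 := fun α =>
    hdU _ (dict_algebraMap_mem_dictU α)
  have hd1 : d 1 = 0 := by
    have := hdalg 1
    rwa [map_one] at this
  have hdsub : ∀ (a : R) (α : 𝒪), d (a - algebraMap 𝒪 R α) = d a := by
    intro a α
    rw [map_sub, hdalg, sub_zero]
  have hdmul : ∀ a b : R, d (a * b) = π a * d b + π b * d a := by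
    intro a b
    obtain ⟨α, hα, hx⟩ := key a
    obtain ⟨β, hβ, hy⟩ := key b
    have e1 : a * b = algebraMap 𝒪 R (α * β) + α • (b - algebraMap 𝒪 R β)
        + β • (a - algebraMap 𝒪 R α)
        + (a - algebraMap 𝒪 R α) * (b - algebraMap 𝒪 R β) := by
      rw [Algebra.smul_def, Algebra.smul_def, map_mul]; ring
    have e2 : d ((a - algebraMap 𝒪 R α) * (b - algebraMap 𝒪 R β)) = 0 := by
      refine hdU _ (dict_mem_dictU_of_mem_sq ?_)
      rw [pow_two]
      exact Ideal.mul_mem_mul hx hy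
    rw [e1, map_add, map_add, map_add, e2, hdalg, map_smul, map_smul, hdsub, hdsub,
      Algebra.smul_def, Algebra.smul_def, ← hα, ← hβ]
    simp only [zero_add, add_zero]
    rfl
  let Ψ : R →+* DualNumber (ResidueField 𝒪) :=
    Fermat.Agent.S53.tangentRingHom π d.toAddMonoidHom hd1 hdmul
  have hΨ1 : ∀ a : R, (Ψ a).fst = π a := fun a => Fermat.Agent.S53.tangentRingHom_fst _ _ _ _ a
  have hΨ2 : ∀ a : R, (Ψ a).snd = d a := fun a => Fermat.Agent.S53.tangentRingHom_snd _ _ _ _ a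
  have halg1 : ∀ α : 𝒪,
      (algebraMap 𝒪 (DualNumber (ResidueField 𝒪)) α).fst = residue 𝒪 α := fun α => rfl
  have halg2 : ∀ α : 𝒪,
      (algebraMap 𝒪 (DualNumber (ResidueField 𝒪)) α).snd = 0 := fun α => rfl
  have hΨ : ∀ α : 𝒪, Ψ (algebraMap 𝒪 R α) = algebraMap 𝒪 (DualNumber (ResidueField 𝒪)) α := by
    intro α
    apply TrivSqZeroExt.ext
    · rw [hΨ1, hπ, halg1]
    · rw [hΨ2, hdalg, halg2]
  refine ⟨{ Ψ with commutes' := hΨ }, ⟨fun a ha => ?_⟩, fun a => hΨ2 a⟩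
  have ha' : IsUnit (Ψ a) := ha
  rw [TrivSqZeroExt.isUnit_iff_isUnit_fst, hΨ1] at ha'
  rw [← notMem_maximalIdeal, ← hπ0]
  exact ha'.ne_zero

/-- If there are at most `|k|^r` local `𝒪`-algebra maps `R → k[ε]`, then `R` is generated modulo
`𝔪_R²` by `𝒪` and `r` elements of `𝔪_R`. -/
theorem dict_exists_generators [IsNoetherianRing R] [IsLocalHom (algebraMap 𝒪 R)]
    (hs : Function.Surjective (residue R ∘ algebraMap 𝒪 R)) (r : ℕ)
    (hcard : letI := Fermat.Agent.S53.dualNumberAlgebra 𝒪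
      ∃ g : {Ψ : R →ₐ[𝒪] DualNumber (ResidueField 𝒪) //
          IsLocalHom (Ψ : R →+* DualNumber (ResidueField 𝒪))} →
        Fin (Nat.card (ResidueField 𝒪) ^ r), Function.Injective g) :
    ∃ x : Fin r → R, (∀ i, x i ∈ maximalIdeal R) ∧
      ∀ y : R, ∃ (α : 𝒪) (c : Fin r → 𝒪),
        y - (algebraMap 𝒪 R α + ∑ i, c i • x i) ∈ maximalIdeal R ^ 2 := by
  letI := Fermat.Agent.S53.dualNumberAlgebra 𝒪
  have htors := dict_isTorsionBySet (𝒪 := 𝒪) (R := R) hs
  letI : Module (ResidueField 𝒪) (R ⧸ dictU 𝒪 R) := htors.module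
  haveI : IsScalarTower 𝒪 (ResidueField 𝒪) (R ⧸ dictU 𝒪 R) := htors.isScalarTower
  -- `W = R ⧸ U` is finite
  haveI : Finite (ResidueField R) := Fermat.Agent.S53.finite_residueField_of_surjective hs
  haveI : Finite (R ⧸ maximalIdeal R ^ 2) := IsLocalRing.finite_quotient_iff.2 ⟨2, le_rfl⟩
  haveI : Finite (R ⧸ (maximalIdeal R ^ 2).restrictScalars 𝒪) :=
    Finite.of_equiv _ (Submodule.Quotient.restrictScalarsEquiv 𝒪 (maximalIdeal R ^ 2)).symm.toEquiv
  have hle : (maximalIdeal R ^ 2).restrictScalars 𝒪 ≤ dictU 𝒪 R := le_sup_right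
  haveI : Finite (R ⧸ dictU 𝒪 R) :=
    Finite.of_surjective _ (Submodule.factor_surjective hle)
  haveI : Module.Finite (ResidueField 𝒪) (R ⧸ dictU 𝒪 R) := Module.Finite.of_finite
  -- the map from the dual of `W` to the set of homomorphisms
  have hΦ : ∀ φ : Module.Dual (ResidueField 𝒪) (R ⧸ dictU 𝒪 R),
      ∃ Ψ : R →ₐ[𝒪] DualNumber (ResidueField 𝒪),
        IsLocalHom (Ψ : R →+* DualNumber (ResidueField 𝒪)) ∧
          ∀ a : R, (Ψ a).snd = φ ((dictU 𝒪 R).mkQ a) := by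
    intro φ
    refine dict_exists_algHom_of_derivation hs ((φ.restrictScalars 𝒪).comp (dictU 𝒪 R).mkQ) ?_
    intro u hu
    show φ ((dictU 𝒪 R).mkQ u) = 0
    rw [Submodule.mkQ_apply, (Submodule.Quotient.mk_eq_zero (dictU 𝒪 R)).mpr hu, map_zero]
  choose Φ hΦloc hΦsnd using hΦ
  obtain ⟨g, hg⟩ := hcard
  have hinj : Function.Injective
      (fun φ : Module.Dual (ResidueField 𝒪) (R ⧸ dictU 𝒪 R) => g ⟨Φ φ, hΦloc φ⟩) := by
    intro φ φ' h
    have h1 := hg h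
    have h2 : Φ φ = Φ φ' := congrArg Subtype.val h1
    refine LinearMap.ext fun w => ?_
    obtain ⟨a, rfl⟩ := (dictU 𝒪 R).mkQ_surjective w
    rw [← hΦsnd, ← hΦsnd, h2]
  have hcard2 : Nat.card (Module.Dual (ResidueField 𝒪) (R ⧸ dictU 𝒪 R)) ≤
      Nat.card (ResidueField 𝒪) ^ r := by
    have := Nat.card_le_card_of_injective _ hinj
    rwa [Nat.card_fin] at this
  have hfr : Module.finrank (ResidueField 𝒪) (R ⧸ dictU 𝒪 R) ≤ r := by
    rw [Module.natCard_eq_pow_finrank (K := ResidueField 𝒪), Subspace.dual_finrank_eq] at hcard2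
    exact (Nat.pow_le_pow_iff_right Finite.one_lt_card).mp hcard2
  -- a spanning family indexed by `Fin r`
  set s := Module.finrank (ResidueField 𝒪) (R ⧸ dictU 𝒪 R) with hsdef
  let v : Fin s → R ⧸ dictU 𝒪 R := Module.finBasis (ResidueField 𝒪) (R ⧸ dictU 𝒪 R)
  have hv : Submodule.span (ResidueField 𝒪) (Set.range v) = ⊤ :=
    (Module.finBasis (ResidueField 𝒪) (R ⧸ dictU 𝒪 R)).span_eq
  let w : Fin r → R ⧸ dictU 𝒪 R := fun i => if h : i.1 < s then v ⟨i.1, h⟩ else 0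
  have hw : Submodule.span (ResidueField 𝒪) (Set.range w) = ⊤ := by
    rw [eq_top_iff, ← hv]
    refine Submodule.span_mono ?_
    rintro _ ⟨j, rfl⟩
    refine ⟨⟨j.1, lt_of_lt_of_le j.2 hfr⟩, ?_⟩
    show (if h : j.1 < s then v ⟨j.1, h⟩ else 0) = v j
    rw [dif_pos j.2]
  -- lift to the maximal ideal
  have hlift : ∀ i, ∃ x ∈ maximalIdeal R, (dictU 𝒪 R).mkQ x = w i := by
    intro i
    obtain ⟨y, hy⟩ := (dictU 𝒪 R).mkQ_surjective (w i)
    obtain ⟨α, hα⟩ := Fermat.Agent.S53.exists_algebraMap_sub_mem_of_surjective hs y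
    refine ⟨y - algebraMap 𝒪 R α, hα, ?_⟩
    rw [map_sub, hy, Submodule.mkQ_apply (dictU 𝒪 R) (algebraMap 𝒪 R α),
      (Submodule.Quotient.mk_eq_zero (dictU 𝒪 R)).mpr (dict_algebraMap_mem_dictU α), sub_zero]
  choose x hxm hxw using hlift
  refine ⟨x, hxm, fun y => ?_⟩
  have hy : (dictU 𝒪 R).mkQ y ∈ Submodule.span (ResidueField 𝒪) (Set.range w) := by
    rw [hw]; trivial
  obtain ⟨c, hc⟩ := (Submodule.mem_span_range_iff_exists_fun (ResidueField 𝒪)).mp hy
  choose c' hc' using fun i => residue_surjective (c i)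
  have h0 : (dictU 𝒪 R).mkQ (y - ∑ i, c' i • x i) = 0 := by
    rw [map_sub, map_sum, ← hc, sub_eq_zero]
    refine Finset.sum_congr rfl fun i _ => ?_
    rw [map_smul, hxw, ← hc' i]
    exact algebraMap_smul (ResidueField 𝒪) (c' i) (w i)
  have h1 : y - ∑ i, c' i • x i ∈ dictU 𝒪 R := by
    rwa [Submodule.mkQ_apply, Submodule.Quotient.mk_eq_zero] at h0
  obtain ⟨α, hα⟩ := dict_exists_of_mem_dictU h1
  refine ⟨α, c', ?_⟩
  have e : y - (algebraMap 𝒪 R α + ∑ i, c' i • x i) =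
      y - ∑ i, c' i • x i - algebraMap 𝒪 R α := by ring
  rw [e]
  exact hα

end Cotangent

section PowerSeries

variable {𝒪 : Type} [CommRing 𝒪]

/-- Substitution into a complete local `𝒪`-algebra: for `a_j` in the maximal ideal of `R` there is
an `𝒪`-algebra homomorphism `𝒪⟦X₁..X_r⟧ → R` with `X_j ↦ a_j`. -/
theorem dict_exists_algHom {R : Type} [CommRing R] [IsLocalRing R] [Algebra 𝒪 R]
    [IsAdicComplete (maximalIdeal R) R] {r : ℕ} (a : Fin r → R)
    (ha : ∀ j, a j ∈ maximalIdeal R) :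
    ∃ γ : MvPowerSeries (Fin r) 𝒪 →ₐ[𝒪] R, ∀ j, γ (MvPowerSeries.X j) = a j := by
  set 𝔫 := maximalIdeal R with h𝔫
  have hnil : ∀ (n : ℕ) (j : Fin r), IsNilpotent (Ideal.Quotient.mk (𝔫 ^ n) (a j)) := by
    intro n j
    refine ⟨n, ?_⟩
    rw [← map_pow]
    exact Ideal.Quotient.eq_zero_iff_mem.mpr (Ideal.pow_mem_pow (ha j) n)
  choose f hf using fun n : ℕ =>
    Fermat.Agent.S53.exists_algHom_mvPowerSeries (𝒪 := 𝒪)
      (fun j : Fin r => Ideal.Quotient.mk (𝔫 ^ n) (a j)) (hnil n)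
  have hcompat : ∀ {m n : ℕ} (hle : m ≤ n),
      (Ideal.Quotient.factorₐ 𝒪 (Ideal.pow_le_pow_right hle)).comp (f n) = f m := by
    intro m n hle
    refine Fermat.Agent.S53.algHom_mvPowerSeries_ext _ _ (fun i => ?_) (fun i => ?_)
    · rw [AlgHom.comp_apply, hf n i, hf m i]
      rfl
    · rw [AlgHom.comp_apply, hf n i]
      exact hnil m i
  refine ⟨IsAdicComplete.liftAlgHom 𝔫 f hcompat, fun j => ?_⟩
  rw [← sub_eq_zero]
  refine IsHausdorff.haus' (I := 𝔫) _ fun n => ?_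
  rw [smul_eq_mul, Ideal.mul_top, SModEq.zero, ← Ideal.Quotient.eq_zero_iff_mem, map_sub,
    sub_eq_zero]
  have h1 : Ideal.Quotient.mk (𝔫 ^ n) (IsAdicComplete.liftAlgHom 𝔫 f hcompat (MvPowerSeries.X j)) =
      f n (MvPowerSeries.X j) := IsAdicComplete.mk_liftAlgHom 𝔫 f hcompat n _
  rw [h1, hf n j]

/-- An `𝒪`-algebra map from a local ring to a local `𝒪`-algebra with `𝒪 → R/𝔪_R` onto is a local
homomorphism. -/
theorem dict_isLocalHom_of_residue_surjective [IsLocalRing 𝒪] {P R : Type} [CommRing P]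
    [IsLocalRing P] [Algebra 𝒪 P] [CommRing R] [IsLocalRing R] [Algebra 𝒪 R]
    (hs : Function.Surjective (residue R ∘ algebraMap 𝒪 R)) (γ : P →ₐ[𝒪] R) :
    IsLocalHom (γ : P →+* R) := by
  have hsurj : Function.Surjective ((residue R).comp (γ : P →+* R)) := by
    intro z
    obtain ⟨α, hα⟩ := hs z
    refine ⟨algebraMap 𝒪 P α, ?_⟩
    rw [RingHom.comp_apply, AlgHom.coe_toRingHom, AlgHom.commutes]
    exact hα
  have hmax : (RingHom.ker ((residue R).comp (γ : P →+* R))).IsMaximal :=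
    RingHom.ker_isMaximal_of_surjective _ hsurj
  have hker : RingHom.ker ((residue R).comp (γ : P →+* R)) = maximalIdeal P :=
    IsLocalRing.eq_maximalIdeal hmax
  refine ⟨fun p hp => ?_⟩
  by_contra hnu
  have hmem : p ∈ maximalIdeal P := hnu
  rw [← hker, RingHom.mem_ker, RingHom.comp_apply, residue_eq_zero_iff] at hmem
  exact hmem hp

end PowerSeries

theorem exists_surjective_of_tangentCardLe
    {𝒪 : Type} [CommRing 𝒪] [IsDomain 𝒪] [IsDiscreteValuationRing 𝒪]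
    [IsAdicComplete (maximalIdeal 𝒪) 𝒪] [Finite (ResidueField 𝒪)]
    {ρbar : ResidualGaloisRep (ResidueField 𝒪)}
    {𝒟 : ∀ ⦃A : Type⦄ [CommRing A] [IsLocalRing A] [Algebra 𝒪 A], GaloisRepAdic A → Prop}
    (h𝒟 : GaloisRep.IsDeformationCondition 𝒪 𝒟)
    (D : GaloisRep.DeformationRingData 𝒪 ρbar 𝒟) (r : ℕ)
    (h : TangentCardLe 𝒪 ρbar 𝒟 (Nat.card (ResidueField 𝒪) ^ r)) :
    ∃ γ : MvPowerSeries (Fin r) 𝒪 →ₐ[𝒪] D.R, Function.Surjective γ := by
  letI := Fermat.Agent.S53.dualNumberAlgebra 𝒪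
  have hT := Fermat.Agent.S53.isArtinianTestAlgebra_dualNumber (𝒪 := 𝒪)
  obtain ⟨f, hf⟩ := h
  -- at most `|k|^r` local algebra maps `R → k[ε]`
  have hcard : ∃ g : {Ψ : D.R →ₐ[𝒪] DualNumber (ResidueField 𝒪) //
        IsLocalHom (Ψ : D.R →+* DualNumber (ResidueField 𝒪))} →
      Fin (Nat.card (ResidueField 𝒪) ^ r), Function.Injective g := by
    refine ⟨fun Ψ => f (D.ρ.baseChangeAlong (Ψ.1 : D.R →+* DualNumber (ResidueField 𝒪)) Ψ.2), ?_⟩
    rintro ⟨Ψ, hΨ⟩ ⟨Ψ', hΨ'⟩ hfeq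
    have h1 := hf _ _ (dict_isTangentPoint h𝒟 D Ψ hΨ) (dict_isTangentPoint h𝒟 D Ψ' hΨ') hfeq
    exact Subtype.ext (dict_algHom_eq_of_isEquiv h𝒟 D hT Ψ Ψ' hΨ hΨ' h1)
  obtain ⟨x, hxm, hx⟩ := dict_exists_generators (𝒪 := 𝒪) (R := D.R) D.residue_surjective r hcard
  obtain ⟨γ, hγ⟩ := dict_exists_algHom (𝒪 := 𝒪) x hxm
  refine ⟨γ, ?_⟩
  haveI : IsAdicComplete (maximalIdeal (MvPowerSeries (Fin r) 𝒪)) (MvPowerSeries (Fin r) 𝒪) :=
    Fermat.Agent.S53.mvPowerSeries_isAdicComplete 𝒪 r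
  haveI : IsLocalHom (γ : MvPowerSeries (Fin r) 𝒪 →+* D.R) :=
    dict_isLocalHom_of_residue_surjective D.residue_surjective γ
  refine Fermat.Agent.S59.redAux_surjective_of_sq (γ : MvPowerSeries (Fin r) 𝒪 →+* D.R) ?_
  intro y
  obtain ⟨α, c, hy⟩ := hx y
  refine ⟨algebraMap 𝒪 _ α + ∑ i, c i • MvPowerSeries.X i, ?_⟩
  have e : (γ : MvPowerSeries (Fin r) 𝒪 →+* D.R) (algebraMap 𝒪 _ α + ∑ i, c i • MvPowerSeries.X i)
      = algebraMap 𝒪 D.R α + ∑ i, c i • x i := by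
    rw [AlgHom.coe_toRingHom, map_add, AlgHom.commutes, map_sum]
    congr 1
    refine Finset.sum_congr rfl fun i _ => ?_
    rw [map_smul, hγ]
  rw [e]
  exact hy

end Fermat.Agent.S56
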