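/-
S56, architect file 7: `SelmerWallC` from the walls W2 (Greenberg–Wiles), W3 (local bounds),
W1b (ramification) — the arithmetic of the cardinalities.  Owner: helper82.
-/
import Fermat.Agent.S56.W2.GW
import Fermat.Agent.S56.W3.TW
import Fermat.Agent.S56.W3.Unip
import Fermat.Agent.S56.W3.Arch
import Fermat.Agent.S56.W1.Unr
import Fermat.Agent.S56.W1.Kill

set_option autoImplicit false

namespace Fermat.Agent.S56

open Fermat.Agent.F4 ExtCitation IsLocalRing

theorem primesOf_union (A B : Finset ℕ) : primesOf (A ∪ B) = primesOf A ∪ primesOf B := by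
  ext q
  simp [mem_primesOf]

theorem card_primesOf {Q : Finset ℕ} (hQ : ∀ q ∈ Q, q.Prime) : (primesOf Q).card = Q.card := by
  refine Finset.card_bij (fun (q : Nat.Primes) _ => (q : ℕ)) (fun q hq => mem_primesOf.1 hq)
    (fun a _ b _ hab => Subtype.ext hab) (fun b hb => ?_)
  exact ⟨⟨b, hQ b hb⟩, mem_primesOf.2 hb, rfl⟩

theorem disjoint_primesOf {A B : Finset ℕ} (h : ∀ q ∈ B, q ∉ A) :
    Disjoint (primesOf A) (primesOf B) := by
  rw [Finset.disjoint_left]
  intro q hqA hqB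
  exact h _ (mem_primesOf.1 hqB) (mem_primesOf.1 hqA)


/-- The arithmetic of the Greenberg–Wiles inequality. -/
theorem ncard_le_of_gw_arith {s H₀ HQ a PL PH1 K n : ℕ} (hK : 0 < K) (hH₀ : 0 < H₀)
    (hHQ : 0 < HQ) (hgw : s * (H₀ * HQ) * a ≤ PL * PH1) (hPL : PL ≤ K * H₀)
    (hPH1 : PH1 ≤ K ^ n * HQ) (ha : K ≤ a) : s ≤ K ^ n := by
  have h1 : s * (H₀ * HQ) * K ≤ s * (H₀ * HQ) * a := Nat.mul_le_mul_left _ ha
  have h2 : PL * PH1 ≤ (K * H₀) * (K ^ n * HQ) := Nat.mul_le_mul hPL hPH1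
  have h3 : s * (H₀ * HQ * K) ≤ K ^ n * (H₀ * HQ * K) := by
    calc s * (H₀ * HQ * K) = s * (H₀ * HQ) * K := by ring
      _ ≤ (K * H₀) * (K ^ n * HQ) := (h1.trans hgw).trans h2
      _ = K ^ n * (H₀ * HQ * K) := by ring
  exact Nat.le_of_mul_le_mul_right h3 (Nat.mul_pos (Nat.mul_pos hH₀ hHQ) hK)

section Asm

variable {𝒪 : Type} [CommRing 𝒪] [IsLocalRing 𝒪] [Finite (ResidueField 𝒪)]

instance finite_ad0 (ρbar : ResidualGaloisRep (ResidueField 𝒪)) : Module.Finite (ResidueField 𝒪) (ad0 ρbar) := by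
  show Module.Finite (ResidueField 𝒪) ↥(ad0Sub ρbar)
  infer_instance

instance finite_ad0_type (ρbar : ResidualGaloisRep (ResidueField 𝒪)) : Finite (ad0 ρbar) :=
  Module.finite_of_finite (ResidueField 𝒪)

/-- **`SelmerWallC` from the walls**, for a family of conditions `cond Q` which imply: cyclotomic
determinant, unramified outside `Smin ∪ Q`, unipotent inertia on `Smin \ {p}`, and whose tangent
classes satisfy a local wall with bound `|k|` at `p`. -/
theorem selmerWallC_of_localWall (p : ℕ) [Fact p.Prime] (hp2 : p ≠ 2)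
    (hp𝒪 : (p : 𝒪) ∈ maximalIdeal 𝒪)
    (ρbar : ResidualGaloisRep (ResidueField 𝒪))
    (habs : ρbar.IsAbsolutelyIrreducible)
    (hdet : (GaloisRepAdic.ofResidualGaloisRep ρbar).DetIsCyclotomic p)
    (S Smin : Finset ℕ) (hpSmin : p ∈ Smin) (hSmin : Smin ⊆ S)
    (hmin : ∀ q : ℕ, q.Prime → q ≠ p → (q ∈ Smin ↔ ¬ ρbar.IsUnramifiedAt q))
    (cond : Finset ℕ → ∀ ⦃A : Type⦄ [CommRing A] [IsLocalRing A] [Algebra 𝒪 A],
      GaloisRepAdic A → Prop)
    (hc_det : ∀ (Q : Finset ℕ) ⦃A : Type⦄ [CommRing A] [IsLocalRing A] [Algebra 𝒪 A]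
      (ρ : GaloisRepAdic A), cond Q ρ → ρ.DetIsCyclotomic p)
    (hc_unr : ∀ (Q : Finset ℕ) ⦃A : Type⦄ [CommRing A] [IsLocalRing A] [Algebra 𝒪 A]
      (ρ : GaloisRepAdic A), cond Q ρ → ∀ q : ℕ, q.Prime → q ∉ Smin ∪ Q → ρ.IsUnramifiedAt q)
    (hc_unip : ∀ (Q : Finset ℕ) ⦃A : Type⦄ [CommRing A] [IsLocalRing A] [Algebra 𝒪 A]
      (ρ : GaloisRepAdic A), cond Q ρ →
        ∀ q ∈ Smin, q.Prime → q ≠ p → ρ.IsUnipotentOnInertiaAt q)
    (hc_p : ∀ Q : Finset ℕ, LocalWall (ad0 ρbar) (TangentClasses 𝒪 ρbar (cond Q)) (pPrime p)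
      (Nat.card (ResidueField 𝒪))) :
    SelmerWallC 𝒪 p ρbar S cond := by
  classical
  have hpk : (p : ResidueField 𝒪) = 0 := by
    have h : (residue 𝒪) (p : 𝒪) = 0 := (residue_eq_zero_iff _).2 hp𝒪
    simpa using h
  have hunr : ∀ q : ℕ, q.Prime → q ∉ Smin → ρbar.IsUnramifiedAt q := by
    intro q hq hqS
    by_cases hqp : q = p
    · exact absurd (hqp ▸ hpSmin) hqS
    · by_contra h
      exact hqS ((hmin q hq hqp).2 h)
  refine ⟨unrOutside (primesOf Smin) (ad0Dual ρbar),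
    finiteDimensional_unrOutside p hpk ρbar Smin hpSmin hunr, ?_⟩
  intro Q hQ hkill
  have hQprime : ∀ q ∈ Q, q.Prime := fun q hq => (hQ q hq).1.1
  have hQS : ∀ q ∈ Q, q ∉ Smin := fun q hq h => (hQ q hq).1.2.1 (hSmin h)
  -- the local walls at the primes of `Smin`
  have hwall : ∀ v ∈ primesOf Smin, LocalWall (ad0 ρbar) (TangentClasses 𝒪 ρbar (cond Q)) v
      (if v = pPrime p then Nat.card (ResidueField 𝒪) else 1) := by
    intro v hv
    by_cases hvp : v = pPrime p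
    · subst hvp
      rw [if_pos rfl]
      exact hc_p Q
    · rw [if_neg hvp]
      have hvp' : (v : ℕ) ≠ p := fun h => hvp (Subtype.ext h)
      have hvS : (v : ℕ) ∈ Smin := mem_primesOf.1 hv
      exact localWall_unip p hp2 ρbar hdet (cond Q) v hvp' ((hmin v v.2 hvp').1 hvS)
        (fun A _ _ _ ρ hρ => ⟨hc_det Q ρ hρ, hc_unip Q ρ hρ v hvS v.2 hvp'⟩)
  let L : ∀ v : Nat.Primes, AddSubgroup (H1loc (ad0 ρbar) v) := fun v =>
    if h : v ∈ primesOf Smin then Classical.choose (hwall v h) else ⊤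
  have hL : ∀ v (h : v ∈ primesOf Smin), L v = Classical.choose (hwall v h) :=
    fun v h => dif_pos h
  have hLspec := fun v (h : v ∈ primesOf Smin) => Classical.choose_spec (hwall v h)
  -- Greenberg–Wiles
  have hgw := gwStatement (k := ResidueField 𝒪) p hp2 hpk (ad0 ρbar) (detChar ρbar)
    (primesOf Smin) (primesOf Q) L (detChar_isCycloChar p ρbar hdet) inferInstance
    (by
      rw [← primesOf_union]
      exact isSmooth_ad0 ρbar (Smin ∪ Q)
        (fun q hq hqn => hunr q hq (fun h => hqn (Finset.mem_union_left _ h))))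
    (mem_primesOf.2 hpSmin) (disjoint_primesOf hQS) (H0glob_ad0 p hp2 hpk ρbar habs)
    (fun v hv => by rw [hL v hv]; exact (hLspec v hv).2.1)
    (fun q hq => (localBound_TW p hpk ρbar S q (hQ q (mem_primesOf.1 hq))
      (hunr q q.2 (hQS q (mem_primesOf.1 hq)))).1)
    (fun n hn hloc => eq_zero_of_kills p ρbar Smin Q hpSmin hunr
      (fun q hq => ⟨hQprime q hq, hQS q hq⟩) hkill n hn hloc)
  have hsub : TangentClasses 𝒪 ρbar (cond Q) ⊆
      selSet (primesOf Smin ∪ primesOf Q) (ad0 ρbar) (primesOf Smin) L := by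
    intro x hx
    refine ⟨?_, fun v hv => ?_⟩
    · rw [← primesOf_union]
      exact tangentClasses_subset_unrOutside ρbar (cond Q) (Smin ∪ Q)
        (fun A _ _ _ ρ hρ => hc_unr Q ρ hρ) x hx
    · rw [hL v hv]
      exact (hLspec v hv).1 x hx
  obtain ⟨hfin, hineq⟩ := hgw
  refine ⟨hfin.subset hsub, (Set.ncard_le_ncard hsub hfin).trans ?_⟩
  rw [← card_primesOf hQprime]
  rw [Finset.prod_union (disjoint_primesOf hQS)] at hineq
  refine ncard_le_of_gw_arith (K := Nat.card (ResidueField 𝒪)) Nat.card_pos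
    (Finset.prod_pos fun v _ => Nat.card_pos) (Finset.prod_pos fun v _ => Nat.card_pos)
    hineq ?_ ?_ (card_le_card_H0arch p hp2 ρbar hdet)
  · calc ∏ v ∈ primesOf Smin, Nat.card (L v)
        ≤ ∏ v ∈ primesOf Smin, ((if v = pPrime p then Nat.card (ResidueField 𝒪) else 1) *
            Nat.card (H0loc (ad0 ρbar) v)) :=
          Finset.prod_le_prod (fun _ _ => Nat.zero_le _)
            (fun v hv => by rw [hL v hv]; exact (hLspec v hv).2.2)
      _ = Nat.card (ResidueField 𝒪) * ∏ v ∈ primesOf Smin, Nat.card (H0loc (ad0 ρbar) v) := by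
          rw [Finset.prod_mul_distrib, Finset.prod_ite_eq', if_pos (mem_primesOf.2 hpSmin)]
  · calc ∏ q ∈ primesOf Q, Nat.card (H1loc (ad0 ρbar) q)
        ≤ ∏ q ∈ primesOf Q, (Nat.card (ResidueField 𝒪) * Nat.card (H0loc (ad0 ρbar) q)) :=
          Finset.prod_le_prod (fun _ _ => Nat.zero_le _)
            (fun q hq => (localBound_TW p hpk ρbar S q (hQ q (mem_primesOf.1 hq))
              (hunr q q.2 (hQS q (mem_primesOf.1 hq)))).2)
      _ = Nat.card (ResidueField 𝒪) ^ (primesOf Q).card *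
            ∏ q ∈ primesOf Q, Nat.card (H0loc (ad0 ρbar) q) := by
          rw [Finset.prod_mul_distrib, Finset.prod_const]

end Asm

end Fermat.Agent.S56
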