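/-
S56, WALL W5 (owner: helper59): Taylor-Wiles primes.  Wired to `TW/Main.lean`
(`Fermat.Agent.S56.TW.twPrimes_of_hyp`); the leaves are in `Fermat/Agent/S56/TW/`.

Classical proof (DDT 2.49, Wiles 3.?), `N = ad0Dual ρbar`, `F_n = ℚ(ρbar, ζ_{p^(n+1)})`:
(a) for a cocycle `c` which is not a coboundary there is `σ ∈ G_ℚ`, trivial on `μ_{p^(n+1)}`, with
    `ρbar σ` having two distinct eigenvalues and `c σ ∉ (σ - 1) N`:
    `H¹(Gal(F_n/ℚ), N) = 0` (Sah's lemma when `ζ_p ∉ ℚ(ad⁰ρbar)`; otherwise group theory of the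
    image, cf. `Fermat.Agent.S59.S56Hyp`), so `c` restricts to a nonzero `G`-homomorphism on
    `G_{F_n}`; its image spans a nonzero submodule `W` of `N`; irreducibility of `ρbar` on
    `G_{ℚ(ζ_{p^(n+1)})}` (from `hTW`: the only quadratic subfield) gives `g` with distinct
    eigenvalues and `W ⊄ (g - 1) N`; take `σ = g` or `σ = τ g` with `τ ∈ G_{F_n}`;
(b) the three conditions on `σ` only depend on the cyclic group generated by the image of `σ` in
    the Galois group of the field cut out by `ρbar`, `ζ_{p^(n+1)}` and `Ψ`: Frobenius density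
    (`Fermat.Agent.FrobDensity.frobenius_density`) gives infinitely many primes `q`;
(c) induction on `dim Ψ`: the evaluation `Ψ → N/(Frob_q - 1)N` has a 1-dimensional target.
-/
import Fermat.Agent.S56.Walls
import Fermat.Agent.S56.TW.Main
import Fermat.Prelude.Def_GaloisRep_LocalConditions

set_option autoImplicit false

namespace Fermat.Agent.S56

open Fermat.Agent.F4 Polynomial IsLocalRing

theorem twPrimesStatement
    {𝒪 : Type} [CommRing 𝒪] [IsDomain 𝒪] [IsDiscreteValuationRing 𝒪]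
    [IsAdicComplete (maximalIdeal 𝒪) 𝒪] [Finite (ResidueField 𝒪)]
    (p : ℕ) [Fact p.Prime] (hp2 : p ≠ 2) (hp𝒪 : (p : 𝒪) ∈ maximalIdeal 𝒪)
    (ρbar : ResidualGaloisRep (ResidueField 𝒪))
    (habs : ρbar.IsAbsolutelyIrreducible)
    (hdet : (GaloisRepAdic.ofResidualGaloisRep ρbar).DetIsCyclotomic p)
    (hsplit : ∀ σ : AlgebraicClosure ℚ ≃ₐ[ℚ] AlgebraicClosure ℚ,
      ∃ α β : ResidueField 𝒪, LinearMap.charpoly (ρbar.ρ σ) = (X - C α) * (X - C β))
    (hTW : ∀ (K : Type) [Field K] [Algebra (ResidueField 𝒪) K]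
      (G : Subgroup (AlgebraicClosure ℚ ≃ₐ[ℚ] AlgebraicClosure ℚ)), G.index = 2 →
      ∀ V : Submodule K (ρbar.baseChange K).V,
        (∀ σ ∈ G, ∀ x ∈ V, (ρbar.baseChange K).ρ σ x ∈ V) → V = ⊥ ∨ V = ⊤)
    (S : Finset ℕ) (hpS : p ∈ S)
    (hS : ∀ q : ℕ, q.Prime → q ∉ S → ρbar.IsUnramifiedAt q) :
    TWPrimesStatement p ρbar S := by
  have hchar : ((p : ℕ) : ResidueField 𝒪) = 0 := by
    have h := (IsLocalRing.residue_eq_zero_iff (p : 𝒪)).mpr hp𝒪
    rwa [map_natCast] at h
  exact TW.twPrimes_of_hyp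
    { finite := inferInstance
      prime := Fact.out
      odd := hp2
      char := hchar
      habs := habs
      hdet := hdet
      hsplit := hsplit
      hTW := hTW } S hpS

end Fermat.Agent.S56
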