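/-
S56, architect file 8: the frozen statement S56 from the leaves.  Sorry-free by itself; its closure
contains the open leaves W1a, W1b, W1c, W2, W3a-d, W4, W5.  The body of `result_of_leaves` becomes
`Fermat/Agent/S56.lean` once the closure is sorry-free.  Owner: helper82.
-/
import Fermat.Agent.S56.Assembly
import Fermat.Agent.S56.SelmerAsm
import Fermat.Agent.S56.TWPrimes
import Fermat.Agent.S56.W3.SO
import Fermat.Agent.S56.W4.Flat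

set_option autoImplicit false

open Polynomial IsLocalRing

namespace Fermat.Agent.S56

section

variable {𝒪 : Type} [CommRing 𝒪] [IsDomain 𝒪] [IsDiscreteValuationRing 𝒪]
  [IsAdicComplete (maximalIdeal 𝒪) 𝒪] [Finite (ResidueField 𝒪)]

/-- The wall `TWBound` for the strict-ordinary conditions. -/
theorem twBound_SO (p : ℕ) [Fact p.Prime] (hp2 : p ≠ 2) (hp𝒪 : (p : 𝒪) ∈ maximalIdeal 𝒪)
    (ρbar : ResidualGaloisRep (ResidueField 𝒪))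
    (habs : ρbar.IsAbsolutelyIrreducible)
    (hdet : (GaloisRepAdic.ofResidualGaloisRep ρbar).DetIsCyclotomic p)
    (hsplit : ∀ σ : AlgebraicClosure ℚ ≃ₐ[ℚ] AlgebraicClosure ℚ,
      ∃ α β : ResidueField 𝒪, LinearMap.charpoly (ρbar.ρ σ) = (X - C α) * (X - C β))
    (hTW : ∀ (K : Type) [Field K] [Algebra (ResidueField 𝒪) K]
      (G : Subgroup (AlgebraicClosure ℚ ≃ₐ[ℚ] AlgebraicClosure ℚ)), G.index = 2 →
      ∀ V : Submodule K (ρbar.baseChange K).V,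
        (∀ σ ∈ G, ∀ x ∈ V, (ρbar.baseChange K).ρ σ x ∈ V) → V = ⊥ ∨ V = ⊤)
    (S Smin : Finset ℕ) (hpSmin : p ∈ Smin) (hSmin : Smin ⊆ S) (hS : ∀ q ∈ S, q.Prime)
    (hmin : ∀ q : ℕ, q.Prime → q ≠ p → (q ∈ Smin ↔ ¬ ρbar.IsUnramifiedAt q)) :
    TWBound 𝒪 p ρbar S (fun Q => Fermat.Agent.S59.condSO 𝒪 p Smin Q) := by
  have hunrS : ∀ q : ℕ, q.Prime → q ∉ S → ρbar.IsUnramifiedAt q := by
    intro q hq hqS
    by_cases hqp : q = p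
    · exact absurd (hSmin (hqp ▸ hpSmin)) hqS
    · by_contra h
      exact hqS (hSmin ((hmin q hq hqp).2 h))
  refine TWBound_of_walls
    (twPrimesStatement p hp2 hp𝒪 ρbar habs hdet hsplit hTW S (hSmin hpSmin) hunrS) ?_
  refine selmerWall_of_C p ρbar hdet S _ (fun Q A _ _ _ ρ hρ => hρ.1.1) ?_
  exact selmerWallC_of_localWall p hp2 hp𝒪 ρbar habs hdet S Smin hpSmin hSmin hmin _
    (fun Q A _ _ _ ρ hρ => hρ.1.1) (fun Q A _ _ _ ρ hρ => hρ.1.2.2)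
    (fun Q A _ _ _ ρ hρ => hρ.2)
    (fun Q => localWall_SO p hp2 ρbar hdet _ (fun A _ _ _ ρ hρ => ⟨hρ.1.1, hρ.1.2.1⟩))

/-- The wall `TWBound` for the flat conditions. -/
theorem twBound_Fl (p : ℕ) [Fact p.Prime] (hp2 : p ≠ 2) (hp𝒪 : (p : 𝒪) ∈ maximalIdeal 𝒪)
    (ρbar : ResidualGaloisRep (ResidueField 𝒪))
    (habs : ρbar.IsAbsolutelyIrreducible)
    (hdet : (GaloisRepAdic.ofResidualGaloisRep ρbar).DetIsCyclotomic p)
    (hsplit : ∀ σ : AlgebraicClosure ℚ ≃ₐ[ℚ] AlgebraicClosure ℚ,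
      ∃ α β : ResidueField 𝒪, LinearMap.charpoly (ρbar.ρ σ) = (X - C α) * (X - C β))
    (hTW : ∀ (K : Type) [Field K] [Algebra (ResidueField 𝒪) K]
      (G : Subgroup (AlgebraicClosure ℚ ≃ₐ[ℚ] AlgebraicClosure ℚ)), G.index = 2 →
      ∀ V : Submodule K (ρbar.baseChange K).V,
        (∀ σ ∈ G, ∀ x ∈ V, (ρbar.baseChange K).ρ σ x ∈ V) → V = ⊥ ∨ V = ⊤)
    (S Smin : Finset ℕ) (hpSmin : p ∈ Smin) (hSmin : Smin ⊆ S) (hS : ∀ q ∈ S, q.Prime)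
    (hmin : ∀ q : ℕ, q.Prime → q ≠ p → (q ∈ Smin ↔ ¬ ρbar.IsUnramifiedAt q)) :
    TWBound 𝒪 p ρbar S (fun Q => Fermat.Agent.S59.condFl 𝒪 p Smin Q) := by
  have hunrS : ∀ q : ℕ, q.Prime → q ∉ S → ρbar.IsUnramifiedAt q := by
    intro q hq hqS
    by_cases hqp : q = p
    · exact absurd (hSmin (hqp ▸ hpSmin)) hqS
    · by_contra h
      exact hqS (hSmin ((hmin q hq hqp).2 h))
  refine TWBound_of_walls
    (twPrimesStatement p hp2 hp𝒪 ρbar habs hdet hsplit hTW S (hSmin hpSmin) hunrS) ?_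
  refine selmerWall_of_C p ρbar hdet S _ (fun Q A _ _ _ ρ hρ => hρ.1.1) ?_
  exact selmerWallC_of_localWall p hp2 hp𝒪 ρbar habs hdet S Smin hpSmin hSmin hmin _
    (fun Q A _ _ _ ρ hρ => hρ.1.1) (fun Q A _ _ _ ρ hρ => hρ.1.2.2)
    (fun Q A _ _ _ ρ hρ => hρ.2)
    (fun Q => localWall_flat p hp2 ρbar hdet hsplit _ (fun A _ _ _ ρ hρ => ⟨hρ.1.1, hρ.1.2.1⟩))

/-- **S56 from the leaves** (the statement of `Fermat/Statements/S56.lean`). -/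
theorem result_of_leaves
    (p : ℕ) [Fact p.Prime] (hp2 : p ≠ 2) (hp𝒪 : (p : 𝒪) ∈ maximalIdeal 𝒪)
    (ρbar : ResidualGaloisRep (ResidueField 𝒪))
    (habs : ρbar.IsAbsolutelyIrreducible)
    (hdet : (GaloisRepAdic.ofResidualGaloisRep ρbar).DetIsCyclotomic p)
    (hsplit : ∀ σ : AlgebraicClosure ℚ ≃ₐ[ℚ] AlgebraicClosure ℚ,
      ∃ α β : ResidueField 𝒪, LinearMap.charpoly (ρbar.ρ σ) = (X - C α) * (X - C β))
    (hTW : ∀ (K : Type) [Field K] [Algebra (ResidueField 𝒪) K]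
      (G : Subgroup (AlgebraicClosure ℚ ≃ₐ[ℚ] AlgebraicClosure ℚ)), G.index = 2 →
      ∀ V : Submodule K (ρbar.baseChange K).V,
        (∀ σ ∈ G, ∀ x ∈ V, (ρbar.baseChange K).ρ σ x ∈ V) → V = ⊥ ∨ V = ⊤)
    (S Smin : Finset ℕ) (hpSmin : p ∈ Smin) (hSmin : Smin ⊆ S) (hS : ∀ q ∈ S, q.Prime)
    (hmin : ∀ q : ℕ, q.Prime → q ≠ p → (q ∈ Smin ↔ ¬ ρbar.IsUnramifiedAt q)) :
    (∃ r : ℕ, ∀ n : ℕ, ∃ qv : Fin r → ℕ, Function.Injective qv ∧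
      (∀ i, (qv i).Prime ∧ qv i ∉ S ∧ p ^ (n + 1) ∣ qv i - 1) ∧
      (∀ i, ∀ P : ValuationSubring (AlgebraicClosure ℚ), P.LiesOverPrime (qv i) →
        ∀ φ : AlgebraicClosure ℚ ≃ₐ[ℚ] AlgebraicClosure ℚ, P.IsFrobeniusAt φ (qv i) →
          ∃ α β : ResidueField 𝒪, α ≠ β ∧ LinearMap.charpoly (ρbar.ρ φ) = (X - C α) * (X - C β)) ∧
      ∀ DQ : GaloisRep.DeformationRingData 𝒪 ρbar (fun _A _ _ _ ρ =>
          GaloisRep.strictOrdinaryCondition 𝒪 p (Smin ∪ Finset.univ.image qv) ρ ∧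
            ∀ q ∈ Smin, q.Prime → q ≠ p → ρ.IsUnipotentOnInertiaAt q),
        ∃ γ : MvPowerSeries (Fin r) 𝒪 →ₐ[𝒪] DQ.R, Function.Surjective γ) ∧
    (∃ r : ℕ, ∀ n : ℕ, ∃ qv : Fin r → ℕ, Function.Injective qv ∧
      (∀ i, (qv i).Prime ∧ qv i ∉ S ∧ p ^ (n + 1) ∣ qv i - 1) ∧
      (∀ i, ∀ P : ValuationSubring (AlgebraicClosure ℚ), P.LiesOverPrime (qv i) →
        ∀ φ : AlgebraicClosure ℚ ≃ₐ[ℚ] AlgebraicClosure ℚ, P.IsFrobeniusAt φ (qv i) →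
          ∃ α β : ResidueField 𝒪, α ≠ β ∧ LinearMap.charpoly (ρbar.ρ φ) = (X - C α) * (X - C β)) ∧
      ∀ DQ : GaloisRep.DeformationRingData 𝒪 ρbar (fun _A _ _ _ ρ =>
          GaloisRep.flatCondition 𝒪 p (Smin ∪ Finset.univ.image qv) ρ ∧
            ∀ q ∈ Smin, q.Prime → q ≠ p → ρ.IsUnipotentOnInertiaAt q),
        ∃ γ : MvPowerSeries (Fin r) 𝒪 →ₐ[𝒪] DQ.R, Function.Surjective γ) :=
  result_of p hp2 ρbar S Smin
    (twBound_SO p hp2 hp𝒪 ρbar habs hdet hsplit hTW S Smin hpSmin hSmin hS hmin)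
    (twBound_Fl p hp2 hp𝒪 ρbar habs hdet hsplit hTW S Smin hpSmin hSmin hS hmin)

end

end Fermat.Agent.S56
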