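/-
S56, architect file 4: the cohomological form of the Selmer wall.
`SelmerWallC` : there is a finite-dimensional space `Ψ` of dual classes such that for every set `Q`
of Taylor-Wiles primes killing `Ψ` the set `TangentClasses (cond Q) ⊆ H¹(G_ℚ, ad⁰ρbar)` is finite
with at most `|k|^#Q` elements.  `selmerWall_of_C` : `SelmerWallC ⇒ SelmerWall` (by wall W1a).
Owner: helper82.
-/
import Fermat.Agent.S56.Walls
import Fermat.Agent.S56.W1.Cocycle

set_option autoImplicit false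

namespace Fermat.Agent.S56

open Fermat.Agent.F4 IsLocalRing

/-- **Walls W1b-W4** in cohomological form. -/
def SelmerWallC (𝒪 : Type) [CommRing 𝒪] [IsLocalRing 𝒪] (p : ℕ)
    (ρbar : ResidualGaloisRep (ResidueField 𝒪)) (S : Finset ℕ)
    (cond : Finset ℕ → ∀ ⦃A : Type⦄ [CommRing A] [IsLocalRing A] [Algebra 𝒪 A],
      GaloisRepAdic A → Prop) : Prop :=
  ∃ Ψ : Submodule (ResidueField 𝒪) (H1sm levelsAll (ad0Dual ρbar)),
    FiniteDimensional (ResidueField 𝒪) Ψ ∧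
    ∀ Q : Finset ℕ, (∀ q ∈ Q, IsTWPrime p 0 ρbar S q) → Kills ρbar Ψ Q →
      (TangentClasses 𝒪 ρbar (cond Q)).Finite ∧
        (TangentClasses 𝒪 ρbar (cond Q)).ncard ≤ Nat.card (ResidueField 𝒪) ^ Q.card

theorem selmerWall_of_C {𝒪 : Type} [CommRing 𝒪] [IsLocalRing 𝒪] [Finite (ResidueField 𝒪)]
    (p : ℕ) [Fact p.Prime] (ρbar : ResidualGaloisRep (ResidueField 𝒪))
    (hdet : (GaloisRepAdic.ofResidualGaloisRep ρbar).DetIsCyclotomic p) (S : Finset ℕ)
    (cond : Finset ℕ → ∀ ⦃A : Type⦄ [CommRing A] [IsLocalRing A] [Algebra 𝒪 A],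
      GaloisRepAdic A → Prop)
    (hcond : ∀ (Q : Finset ℕ) ⦃A : Type⦄ [CommRing A] [IsLocalRing A] [Algebra 𝒪 A]
      (ρ : GaloisRepAdic A), cond Q ρ → ρ.DetIsCyclotomic p)
    (h : SelmerWallC 𝒪 p ρbar S cond) : SelmerWall 𝒪 p ρbar S cond := by
  obtain ⟨Ψ, hΨ, h⟩ := h
  refine ⟨Ψ, hΨ, fun Q hQ hkill => ?_⟩
  obtain ⟨hfin, hcard⟩ := h Q hQ hkill
  exact tangentCardLe_of_tangentClasses p ρbar hdet (hcond Q) _
    (pow_pos Nat.card_pos _) hfin hcard

end Fermat.Agent.S56
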